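import Fermat.Agent.LT.T6.H189.ArchIntCut

/-!
# Row LT, tower T6, leaf T6.23.14 `H189.PolOfRC` (helper915)

OFF-MAIN.  On `LT/T6/H189/ArchIntCut.lean` (helper189, byte-identical copy, sha256 db591abe...,
with `ArchIntSpec.lean` 4ac6c090...).  No hole, nothing assumed.

    polOfRC915 : Fermat.Agent.LT.T6.H189.PolOfRC
               = IwasawaRC → RightInvRC → CartanRC → AbelAreaRC → PolarRC

The constant of the polar formula is the constant `c` of the Iwasawa formula.  `RightInvRC` is not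
used: the right average is taken in the Iwasawa coordinates.  For `F ≥ 0` measurable:

1. `∫_{det > 0} F dμ = ∫_{det > 0} F(k_φ g) dμ(g) = c ∫ F(k_φ diag n(x) k_θ) du₁ du₂ dx dθ`
   (left invariance, `IwasawaRC`; `polar_step1_915`);
2. average over `φ ∈ (0, 2π]` and Tonelli: `2π ∫ F dμ = c ∫ J(diag(e^{u₁}, e^{u₂}) n(x)) du₁ du₂ dx`,
   `J(g) = ∫∫ F(k_φ g k_θ) dφ dθ` (`polar_step2_915`);
3. `J(g) = P(log det g / 2, arcosh ρ(g))`, `P(r, t) = ∫∫ F(e^r k_φ a_t k_θ) dφ dθ`, by `CartanRC`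
   and the translation invariance of `dθ` on the periodic functions (`avgJ_eq_avgP915`,
   `lintegral_angM_add915`); `ρ(diag n(x)) = cosh s + e^s x²/2`, `s = u₁ - u₂`
   (`rhoP_dgR_mul_unR915`);
4. `(u₁, u₂) ↦ (r, s) = ((u₁ + u₂)/2, u₁ - u₂)` preserves `du₁ du₂` (`lintegral_rs915`, translations
   and Tonelli only), `AbelAreaRC` (`lintegral_abel915`), `arcosh (cosh t) = t` on `t > 0`;
5. cancel `2π`, Tonelli (`polar_step6_915`), `Measure.ext_of_lintegral`.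
-/

set_option autoImplicit false
open MeasureTheory
open scoped ENNReal Matrix

noncomputable section
namespace Fermat.Agent.LT.T6.H915
open Fermat.Agent.LT.T6.H189

/-! ## 1. Matrices -/

theorem coe_dgR915 (u₁ u₂ : ℝ) :
    ((dgR u₁ u₂ : GL (Fin 2) ℝ) : Matrix (Fin 2) (Fin 2) ℝ) = !![Real.exp u₁, 0; 0, Real.exp u₂] :=
  rfl

theorem coe_unR915 (x : ℝ) :
    ((unR x : GL (Fin 2) ℝ) : Matrix (Fin 2) (Fin 2) ℝ) = !![1, x; 0, 1] := rfl

theorem coe_rotR915 (θ : ℝ) :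
    ((rotR θ : GL (Fin 2) ℝ) : Matrix (Fin 2) (Fin 2) ℝ)
      = !![Real.cos θ, -Real.sin θ; Real.sin θ, Real.cos θ] := rfl

theorem rotR_add915 (a b : ℝ) : rotR (a + b) = rotR a * rotR b := by
  apply Units.ext
  rw [Units.val_mul, coe_rotR915, coe_rotR915, coe_rotR915, Real.cos_add, Real.sin_add]
  ext i j
  fin_cases i <;> fin_cases j <;> simp [Matrix.mul_apply, Fin.sum_univ_two] <;> ring

theorem rotR_zero915 : rotR 0 = 1 := by
  apply Units.ext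
  rw [coe_rotR915]
  ext i j
  fin_cases i <;> fin_cases j <;> simp

theorem rotR_periodic915 : Function.Periodic rotR (2 * Real.pi) := by
  intro θ
  apply Units.ext
  rw [coe_rotR915, coe_rotR915, Real.cos_add_two_pi, Real.sin_add_two_pi]

theorem rotR_inv915 (θ : ℝ) : (rotR θ)⁻¹ = rotR (-θ) := by
  apply inv_eq_of_mul_eq_one_right
  rw [← rotR_add915, add_neg_cancel, rotR_zero915]

theorem dgR_add915 (u₁ u₂ v₁ v₂ : ℝ) : dgR (u₁ + v₁) (u₂ + v₂) = dgR u₁ u₂ * dgR v₁ v₂ := by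
  apply Units.ext
  rw [Units.val_mul, coe_dgR915, coe_dgR915, coe_dgR915, Real.exp_add, Real.exp_add]
  ext i j
  fin_cases i <;> fin_cases j <;> simp [Matrix.mul_apply, Fin.sum_univ_two]

theorem dgR_zero915 : dgR 0 0 = 1 := by
  apply Units.ext
  rw [coe_dgR915]
  ext i j
  fin_cases i <;> fin_cases j <;> simp

theorem dgR_inv915 (u₁ u₂ : ℝ) : (dgR u₁ u₂)⁻¹ = dgR (-u₁) (-u₂) := by
  apply inv_eq_of_mul_eq_one_right
  rw [← dgR_add915, add_neg_cancel, add_neg_cancel, dgR_zero915]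

theorem unR_add915 (x y : ℝ) : unR (x + y) = unR x * unR y := by
  apply Units.ext
  rw [Units.val_mul, coe_unR915, coe_unR915, coe_unR915]
  ext i j
  fin_cases i <;> fin_cases j <;> simp [Matrix.mul_apply, Fin.sum_univ_two, add_comm]

theorem unR_zero915 : unR 0 = 1 := by
  apply Units.ext
  rw [coe_unR915]
  ext i j
  fin_cases i <;> fin_cases j <;> simp

theorem unR_inv915 (x : ℝ) : (unR x)⁻¹ = unR (-x) := by
  apply inv_eq_of_mul_eq_one_right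
  rw [← unR_add915, add_neg_cancel, unR_zero915]

/-- The positive scalars are central. -/
theorem sclR_comm915 (r : ℝ) (g : GL (Fin 2) ℝ) : sclR r * g = g * sclR r := by
  apply Units.ext
  rw [Units.val_mul, Units.val_mul]
  show (dgR r r : Matrix (Fin 2) (Fin 2) ℝ) * _ = _ * (dgR r r : Matrix (Fin 2) (Fin 2) ℝ)
  rw [coe_dgR915]
  ext i j
  fin_cases i <;> fin_cases j <;> simp [Matrix.mul_apply, Fin.sum_univ_two, mul_comm]

theorem det_rotR915 (θ : ℝ) : ((rotR θ : GL (Fin 2) ℝ) : Matrix (Fin 2) (Fin 2) ℝ).det = 1 := by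
  rw [coe_rotR915, Matrix.det_fin_two_of]
  have h := Real.cos_sq_add_sin_sq θ
  nlinarith [h]

theorem coe_dgR_mul_unR915 (u₁ u₂ x : ℝ) :
    ((dgR u₁ u₂ * unR x : GL (Fin 2) ℝ) : Matrix (Fin 2) (Fin 2) ℝ)
      = !![Real.exp u₁, Real.exp u₁ * x; 0, Real.exp u₂] := by
  rw [Units.val_mul, coe_dgR915, coe_unR915]
  ext i j
  fin_cases i <;> fin_cases j <;> simp [Matrix.mul_apply, Fin.sum_univ_two]

theorem det_dgR_mul_unR915 (u₁ u₂ x : ℝ) :
    ((dgR u₁ u₂ * unR x : GL (Fin 2) ℝ) : Matrix (Fin 2) (Fin 2) ℝ).det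
      = Real.exp (u₁ + u₂) := by
  rw [coe_dgR_mul_unR915, Matrix.det_fin_two_of, Real.exp_add]
  ring

theorem dgR_mul_unR_mem_posR915 (u₁ u₂ x : ℝ) : dgR u₁ u₂ * unR x ∈ posR := by
  show 0 < ((dgR u₁ u₂ * unR x : GL (Fin 2) ℝ) : Matrix (Fin 2) (Fin 2) ℝ).det
  rw [det_dgR_mul_unR915]
  exact Real.exp_pos _

theorem rhoP_dgR_mul_unR915 (u₁ u₂ x : ℝ) :
    rhoP (dgR u₁ u₂ * unR x)
      = Real.cosh (u₁ - u₂) + Real.exp (u₁ - u₂) * x ^ 2 / 2 := by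
  unfold rhoP
  rw [det_dgR_mul_unR915, coe_dgR_mul_unR915]
  have h1 : (!![Real.exp u₁, Real.exp u₁ * x; 0, Real.exp u₂]ᵀ
      * !![Real.exp u₁, Real.exp u₁ * x; 0, Real.exp u₂]).trace
      = Real.exp u₁ ^ 2 + (Real.exp u₁ * x) ^ 2 + Real.exp u₂ ^ 2 := by
    simp [Matrix.trace_fin_two, Matrix.mul_apply, Fin.sum_univ_two]
    ring
  rw [h1, Real.cosh_eq, Real.exp_add]
  have e1 : Real.exp (u₁ - u₂) = Real.exp u₁ / Real.exp u₂ := Real.exp_sub _ _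
  have e2 : Real.exp (-(u₁ - u₂)) = Real.exp u₂ / Real.exp u₁ := by
    rw [neg_sub]; exact Real.exp_sub _ _
  rw [e1, e2]
  have hp1 : Real.exp u₁ ≠ 0 := Real.exp_ne_zero _
  have hp2 : Real.exp u₂ ≠ 0 := Real.exp_ne_zero _
  field_simp
  ring

/-! ## 2. Continuity -/

theorem continuous_coe_dgR915 :
    Continuous fun p : ℝ × ℝ => ((dgR p.1 p.2 : GL (Fin 2) ℝ) : Matrix (Fin 2) (Fin 2) ℝ) := by
  apply continuous_matrix
  intro i j
  fin_cases i <;> fin_cases j <;> simp [coe_dgR915] <;> fun_prop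

theorem continuous_dgR915 : Continuous fun p : ℝ × ℝ => dgR p.1 p.2 := by
  rw [Units.continuous_iff]
  refine ⟨continuous_coe_dgR915, ?_⟩
  have h : (fun p : ℝ × ℝ => (((dgR p.1 p.2)⁻¹ : GL (Fin 2) ℝ) : Matrix (Fin 2) (Fin 2) ℝ))
      = (fun p : ℝ × ℝ => ((dgR p.1 p.2 : GL (Fin 2) ℝ) : Matrix (Fin 2) (Fin 2) ℝ))
        ∘ fun p : ℝ × ℝ => (-p.1, -p.2) := by
    funext p
    rw [dgR_inv915]
    rfl
  rw [h]
  exact continuous_coe_dgR915.comp (by fun_prop)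

theorem continuous_coe_unR915 :
    Continuous fun x : ℝ => ((unR x : GL (Fin 2) ℝ) : Matrix (Fin 2) (Fin 2) ℝ) := by
  apply continuous_matrix
  intro i j
  fin_cases i <;> fin_cases j <;> simp [coe_unR915] <;> fun_prop

theorem continuous_unR915 : Continuous unR := by
  rw [Units.continuous_iff]
  refine ⟨continuous_coe_unR915, ?_⟩
  have h : (fun x : ℝ => (((unR x)⁻¹ : GL (Fin 2) ℝ) : Matrix (Fin 2) (Fin 2) ℝ))
      = (fun x : ℝ => ((unR x : GL (Fin 2) ℝ) : Matrix (Fin 2) (Fin 2) ℝ)) ∘ fun x : ℝ => -x := by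
    funext x
    rw [unR_inv915]
    rfl
  rw [h]
  exact continuous_coe_unR915.comp continuous_neg

theorem continuous_coe_rotR915 :
    Continuous fun θ : ℝ => ((rotR θ : GL (Fin 2) ℝ) : Matrix (Fin 2) (Fin 2) ℝ) := by
  apply continuous_matrix
  intro i j
  fin_cases i <;> fin_cases j <;> simp [coe_rotR915] <;> fun_prop

theorem continuous_rotR915 : Continuous rotR := by
  rw [Units.continuous_iff]
  refine ⟨continuous_coe_rotR915, ?_⟩
  have h : (fun θ : ℝ => (((rotR θ)⁻¹ : GL (Fin 2) ℝ) : Matrix (Fin 2) (Fin 2) ℝ))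
      = (fun θ : ℝ => ((rotR θ : GL (Fin 2) ℝ) : Matrix (Fin 2) (Fin 2) ℝ)) ∘ fun θ : ℝ => -θ := by
    funext θ
    rw [rotR_inv915]
    rfl
  rw [h]
  exact continuous_coe_rotR915.comp continuous_neg

theorem continuous_sclR915 : Continuous sclR :=
  continuous_dgR915.comp (continuous_id.prodMk continuous_id)

theorem continuous_atR915 : Continuous atR := by
  have h : atR = (fun p : ℝ × ℝ => dgR p.1 p.2) ∘ fun t : ℝ => (t / 2, -(t / 2)) := rfl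
  rw [h]
  exact continuous_dgR915.comp (by fun_prop)

theorem continuous_det915 :
    Continuous fun g : GL (Fin 2) ℝ => (g : Matrix (Fin 2) (Fin 2) ℝ).det :=
  Units.continuous_val.matrix_det

theorem isOpen_posR915 : IsOpen posR :=
  isOpen_Ioi.preimage continuous_det915


/-! ## 3. Measure theory on the real line -/

/-- Translation invariance of `dθ` on `(0, 2π]` on the periodic functions. -/
theorem lintegral_angM_add915 (f : ℝ → ℝ≥0∞) (hf : Function.Periodic f (2 * Real.pi)) (a : ℝ) :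
    ∫⁻ θ, f (θ + a) ∂angM = ∫⁻ θ, f θ ∂angM := by
  have : Fact (0 < 2 * Real.pi) := ⟨by positivity⟩
  have key : ∀ t : ℝ, ∫⁻ θ in Set.Ioc t (t + 2 * Real.pi), f θ
      = ∫⁻ b : AddCircle (2 * Real.pi), hf.lift b := by
    intro t
    rw [← AddCircle.lintegral_preimage (2 * Real.pi) t hf.lift]
    refine lintegral_congr fun θ => ?_
    exact (Function.Periodic.lift_coe hf θ).symm
  unfold angM
  have h1 : ∫⁻ θ in Set.Ioc 0 (2 * Real.pi), f (θ + a)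
      = ∫⁻ θ in Set.Ioc a (a + 2 * Real.pi), f θ := by
    rw [← lintegral_indicator measurableSet_Ioc, ← lintegral_indicator measurableSet_Ioc]
    rw [← lintegral_add_right_eq_self (fun θ => (Set.Ioc a (a + 2 * Real.pi)).indicator f θ) a]
    refine lintegral_congr fun θ => ?_
    have h2 : θ ∈ Set.Ioc 0 (2 * Real.pi) ↔ θ + a ∈ Set.Ioc a (a + 2 * Real.pi) := by
      simp only [Set.mem_Ioc]
      constructor <;> rintro ⟨h1, h2⟩ <;> constructor <;> linarith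
    by_cases h3 : θ ∈ Set.Ioc 0 (2 * Real.pi)
    · rw [Set.indicator_of_mem h3, Set.indicator_of_mem (h2.mp h3)]
    · rw [Set.indicator_of_notMem h3, Set.indicator_of_notMem (fun h => h3 (h2.mpr h))]
  rw [h1, key a]
  have h0 := key 0
  rw [zero_add] at h0
  rw [h0]

theorem angM_univ915 : angM Set.univ = ENNReal.ofReal (2 * Real.pi) := by
  unfold angM
  rw [Measure.restrict_apply_univ, Real.volume_Ioc, sub_zero]

instance instSFiniteAngM915 : SFinite angM := by unfold angM; infer_instance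

instance instSFiniteRadMR915 : SFinite radMR := by unfold radMR; infer_instance

theorem lintegral_prod3_915 {μ₁ μ₂ μ₃ : Measure ℝ} [SFinite μ₂] [SFinite μ₃]
    (f : ℝ × ℝ × ℝ → ℝ≥0∞) (hf : Measurable f) :
    ∫⁻ p, f p ∂(μ₁.prod (μ₂.prod μ₃)) = ∫⁻ a, ∫⁻ b, ∫⁻ c, f (a, b, c) ∂μ₃ ∂μ₂ ∂μ₁ := by
  rw [lintegral_prod _ hf.aemeasurable]
  refine lintegral_congr fun a => ?_
  have h1 : Measurable fun q : ℝ × ℝ => f (a, q) := hf.comp measurable_prodMk_left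
  rw [lintegral_prod (fun q : ℝ × ℝ => f (a, q)) h1.aemeasurable]

theorem lintegral_prod4_915 {μ₁ μ₂ μ₃ μ₄ : Measure ℝ} [SFinite μ₂] [SFinite μ₃] [SFinite μ₄]
    (f : ℝ × ℝ × ℝ × ℝ → ℝ≥0∞) (hf : Measurable f) :
    ∫⁻ p, f p ∂(μ₁.prod (μ₂.prod (μ₃.prod μ₄)))
      = ∫⁻ a, ∫⁻ b, ∫⁻ c, ∫⁻ d, f (a, b, c, d) ∂μ₄ ∂μ₃ ∂μ₂ ∂μ₁ := by
  rw [lintegral_prod _ hf.aemeasurable]
  refine lintegral_congr fun a => ?_
  have h1 : Measurable fun q : ℝ × ℝ × ℝ => f (a, q) := hf.comp measurable_prodMk_left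
  rw [lintegral_prod3_915 (fun q : ℝ × ℝ × ℝ => f (a, q)) h1]

/-- Re-association of a four-fold integral. -/
theorem lintegral_reassoc915 {μ₁ μ₂ μ₃ μ₄ : Measure ℝ} [SFinite μ₂] [SFinite μ₃] [SFinite μ₄]
    (f : ℝ × ℝ × ℝ × ℝ → ℝ≥0∞) (hf : Measurable f) :
    ∫⁻ p, f p ∂(μ₁.prod (μ₂.prod (μ₃.prod μ₄)))
      = ∫⁻ q, ∫⁻ d, f (q.1, q.2.1, q.2.2, d) ∂μ₄ ∂(μ₁.prod (μ₂.prod μ₃)) := by
  have h1 : Measurable fun z : (ℝ × ℝ × ℝ) × ℝ => f (z.1.1, z.1.2.1, z.1.2.2, z.2) :=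
    hf.comp (by fun_prop)
  have h2 : Measurable fun q : ℝ × ℝ × ℝ => ∫⁻ d, f (q.1, q.2.1, q.2.2, d) ∂μ₄ :=
    h1.lintegral_prod_right'
  rw [lintegral_prod4_915 f hf,
    lintegral_prod3_915 (fun q : ℝ × ℝ × ℝ => ∫⁻ d, f (q.1, q.2.1, q.2.2, d) ∂μ₄) h2]

/-- The change of variables `r = (u₁ + u₂)/2`, `s = u₁ - u₂`. -/
theorem lintegral_rs915 (H : ℝ × ℝ → ℝ≥0∞) (hH : Measurable H) :
    ∫⁻ u₁ : ℝ, ∫⁻ u₂ : ℝ, H ((u₁ + u₂) / 2, u₁ - u₂) = ∫⁻ r : ℝ, ∫⁻ s : ℝ, H (r, s) := by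
  have h1 : ∀ u₁ : ℝ, ∫⁻ u₂ : ℝ, H ((u₁ + u₂) / 2, u₁ - u₂)
      = ∫⁻ s : ℝ, H (u₁ - s / 2, s) := by
    intro u₁
    rw [← lintegral_sub_left_eq_self (fun s : ℝ => H (u₁ - s / 2, s)) u₁]
    refine lintegral_congr fun u₂ => ?_
    have : u₁ - (u₁ - u₂) / 2 = (u₁ + u₂) / 2 := by ring
    rw [this]
  simp only [h1]
  have hm1 : Measurable fun z : ℝ × ℝ => H (z.1 - z.2 / 2, z.2) := hH.comp (by fun_prop)
  rw [lintegral_lintegral_swap (f := fun u₁ s : ℝ => H (u₁ - s / 2, s)) hm1.aemeasurable]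
  have h2 : ∀ s : ℝ, ∫⁻ u₁ : ℝ, H (u₁ - s / 2, s) = ∫⁻ r : ℝ, H (r, s) := by
    intro s
    exact lintegral_sub_right_eq_self (fun r : ℝ => H (r, s)) (s / 2)
  simp only [h2]
  exact lintegral_lintegral_swap (f := fun (s r : ℝ) => H (r, s))
    (hH.comp measurable_swap).aemeasurable

theorem measurable_arcosh915 : Measurable Real.arcosh := by
  unfold Real.arcosh
  fun_prop

/-- The consequence of `AbelAreaRC` for the iterated integrals. -/
theorem lintegral_abel915 (hA : AbelAreaRC) (Q : ℝ → ℝ≥0∞) (hQ : Measurable Q) :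
    ∫⁻ s : ℝ, ∫⁻ x : ℝ, Q (Real.cosh s + Real.exp s * x ^ 2 / 2)
      = ENNReal.ofReal (2 * Real.pi) * ∫⁻ t, Q (Real.cosh t) ∂radMR := by
  have hρ : Measurable fun p : ℝ × ℝ => Real.cosh p.1 + Real.exp p.1 * p.2 ^ 2 / 2 := by
    fun_prop
  have h1 : ∫⁻ s : ℝ, ∫⁻ x : ℝ, Q (Real.cosh s + Real.exp s * x ^ 2 / 2)
      = ∫⁻ p : ℝ × ℝ, Q (Real.cosh p.1 + Real.exp p.1 * p.2 ^ 2 / 2)
          ∂((volume : Measure ℝ).prod (volume : Measure ℝ)) :=
    (lintegral_prod (fun p : ℝ × ℝ => Q (Real.cosh p.1 + Real.exp p.1 * p.2 ^ 2 / 2))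
      (hQ.comp hρ).aemeasurable).symm
  have h2 : ((volume : Measure ℝ).prod (volume : Measure ℝ)) = (volume : Measure (ℝ × ℝ)) := rfl
  rw [h1, h2, ← lintegral_map hQ hρ, hA, lintegral_smul_measure,
    lintegral_map hQ Real.measurable_cosh]
  rfl

/-- `arcosh (cosh t) = t` almost everywhere for `sinh t dt` on `(0, ∞)`. -/
theorem lintegral_radMR_arcosh915 (P : ℝ → ℝ≥0∞) :
    ∫⁻ t, P (Real.arcosh (Real.cosh t)) ∂radMR = ∫⁻ t, P t ∂radMR := by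
  apply lintegral_congr_ae
  have h1 : ∀ᵐ t ∂(volume.restrict (Set.Ioi (0 : ℝ))), t ∈ Set.Ioi (0 : ℝ) :=
    ae_restrict_mem measurableSet_Ioi
  have h2 : radMR ≪ volume.restrict (Set.Ioi (0 : ℝ)) := by
    unfold radMR
    exact withDensity_absolutelyContinuous _ _
  filter_upwards [h2.ae_le h1] with t ht
  rw [Real.arcosh_cosh (le_of_lt ht)]

/-! ## 4. Measure theory on the group -/

section Group

local instance instMeasurableSpaceGL915 : MeasurableSpace (GL (Fin 2) ℝ) := borel _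

local instance instBorelSpaceGL915 : BorelSpace (GL (Fin 2) ℝ) := ⟨rfl⟩

theorem measurableSet_posR915 : MeasurableSet posR := isOpen_posR915.measurableSet

theorem continuous_iwaR915 : Continuous iwaR := by
  unfold iwaR
  have h1 : Continuous fun p : ℝ × ℝ × ℝ × ℝ => dgR p.1 p.2.1 :=
    continuous_dgR915.comp (f := fun p : ℝ × ℝ × ℝ × ℝ => (p.1, p.2.1)) (by fun_prop)
  have h2 : Continuous fun p : ℝ × ℝ × ℝ × ℝ => unR p.2.2.1 :=
    continuous_unR915.comp (by fun_prop)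
  have h3 : Continuous fun p : ℝ × ℝ × ℝ × ℝ => rotR p.2.2.2 :=
    continuous_rotR915.comp (by fun_prop)
  exact (h1.mul h2).mul h3

theorem continuous_polR915 : Continuous polR := by
  unfold polR
  have h1 : Continuous fun p : ℝ × ℝ × ℝ × ℝ => sclR p.1 :=
    continuous_sclR915.comp (by fun_prop)
  have h2 : Continuous fun p : ℝ × ℝ × ℝ × ℝ => rotR p.2.1 :=
    continuous_rotR915.comp (by fun_prop)
  have h3 : Continuous fun p : ℝ × ℝ × ℝ × ℝ => atR p.2.2.1 :=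
    continuous_atR915.comp (by fun_prop)
  have h4 : Continuous fun p : ℝ × ℝ × ℝ × ℝ => rotR p.2.2.2 :=
    continuous_rotR915.comp (by fun_prop)
  exact ((h1.mul h2).mul h3).mul h4

theorem measurable_iwaR915 : Measurable iwaR := continuous_iwaR915.measurable

theorem measurable_polR915 : Measurable polR := continuous_polR915.measurable

/-- Left invariance of `μ|_{det > 0}` under the rotations. -/
theorem setLIntegral_rot_mul915 (μ : Measure (GL (Fin 2) ℝ)) [μ.IsMulLeftInvariant]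
    (F : GL (Fin 2) ℝ → ℝ≥0∞) (φ : ℝ) :
    ∫⁻ g in posR, F (rotR φ * g) ∂μ = ∫⁻ g in posR, F g ∂μ := by
  rw [← lintegral_indicator measurableSet_posR915, ← lintegral_indicator measurableSet_posR915]
  rw [← lintegral_mul_left_eq_self (fun g => posR.indicator F g) (rotR φ)]
  refine lintegral_congr fun g => ?_
  have h2 : g ∈ posR ↔ rotR φ * g ∈ posR := by
    unfold posR
    simp only [Set.mem_ofPred_eq]
    rw [Units.val_mul, Matrix.det_mul, det_rotR915, one_mul]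
  by_cases h3 : g ∈ posR
  · rw [Set.indicator_of_mem h3, Set.indicator_of_mem (h2.mp h3)]
  · rw [Set.indicator_of_notMem h3, Set.indicator_of_notMem (fun h => h3 (h2.mpr h))]

/-- The average over `K × K` in the polar coordinates. -/
def avgP915 (F : GL (Fin 2) ℝ → ℝ≥0∞) (r t : ℝ) : ℝ≥0∞ :=
  ∫⁻ φ, ∫⁻ θ, F (sclR r * rotR φ * atR t * rotR θ) ∂angM ∂angM

/-- The average over `K × K`. -/
def avgJ915 (F : GL (Fin 2) ℝ → ℝ≥0∞) (g : GL (Fin 2) ℝ) : ℝ≥0∞ :=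
  ∫⁻ φ, ∫⁻ θ, F (rotR φ * g * rotR θ) ∂angM ∂angM

theorem avgP915_def (F : GL (Fin 2) ℝ → ℝ≥0∞) (r t : ℝ) :
    avgP915 F r t = ∫⁻ φ, (∫⁻ θ, F (sclR r * rotR φ * atR t * rotR θ) ∂angM) ∂angM := rfl

theorem avgJ915_def (F : GL (Fin 2) ℝ → ℝ≥0∞) (g : GL (Fin 2) ℝ) :
    avgJ915 F g = ∫⁻ φ, (∫⁻ θ, F (rotR φ * g * rotR θ) ∂angM) ∂angM := rfl

theorem measurable_avgP915 (F : GL (Fin 2) ℝ → ℝ≥0∞) (hF : Measurable F) :
    Measurable fun z : ℝ × ℝ => avgP915 F z.1 z.2 := by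
  unfold avgP915
  have hc : Continuous fun w : ((ℝ × ℝ) × ℝ) × ℝ =>
      sclR w.1.1.1 * rotR w.1.2 * atR w.1.1.2 * rotR w.2 := by
    have h1 : Continuous fun w : ((ℝ × ℝ) × ℝ) × ℝ => sclR w.1.1.1 :=
      continuous_sclR915.comp (by fun_prop)
    have h2 : Continuous fun w : ((ℝ × ℝ) × ℝ) × ℝ => rotR w.1.2 :=
      continuous_rotR915.comp (by fun_prop)
    have h3 : Continuous fun w : ((ℝ × ℝ) × ℝ) × ℝ => atR w.1.1.2 :=
      continuous_atR915.comp (by fun_prop)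
    have h4 : Continuous fun w : ((ℝ × ℝ) × ℝ) × ℝ => rotR w.2 :=
      continuous_rotR915.comp (by fun_prop)
    exact ((h1.mul h2).mul h3).mul h4
  have h5 : Measurable fun w : ((ℝ × ℝ) × ℝ) × ℝ =>
      F (sclR w.1.1.1 * rotR w.1.2 * atR w.1.1.2 * rotR w.2) := hF.comp hc.measurable
  have h6 : Measurable fun w : (ℝ × ℝ) × ℝ =>
      ∫⁻ θ, F (sclR w.1.1 * rotR w.2 * atR w.1.2 * rotR θ) ∂angM := h5.lintegral_prod_right'
  exact h6.lintegral_prod_right'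

/-- `F̃ (g) = F̃ (e^r a_t)` with `r = log det g / 2`, `t = arcosh ρ(g)` (from the Cartan
decomposition). -/
theorem avgJ_eq_avgP915 (hC : CartanRC) (F : GL (Fin 2) ℝ → ℝ≥0∞) (g : GL (Fin 2) ℝ)
    (hg : g ∈ posR) :
    avgJ915 F g
      = avgP915 F (Real.log (g : Matrix (Fin 2) (Fin 2) ℝ).det / 2) (Real.arcosh (rhoP g)) := by
  obtain ⟨-, θ₁, θ₂, hdec⟩ := hC g hg
  obtain ⟨r, hr⟩ : ∃ r : ℝ, r = Real.log (g : Matrix (Fin 2) (Fin 2) ℝ).det / 2 := ⟨_, rfl⟩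
  obtain ⟨t, ht⟩ : ∃ t : ℝ, t = Real.arcosh (rhoP g) := ⟨_, rfl⟩
  rw [← hr, ← ht] at hdec ⊢
  have hmul : ∀ φ θ : ℝ, rotR φ * g * rotR θ
      = sclR r * rotR (φ + θ₁) * atR t * rotR (θ + θ₂) := by
    intro φ θ
    have e1 : rotR (θ + θ₂) = rotR θ₂ * rotR θ := by rw [add_comm, rotR_add915]
    rw [e1, rotR_add915, ← mul_assoc (sclR r), sclR_comm915 r (rotR φ)]
    conv_lhs => rw [hdec]
    simp only [mul_assoc]
  unfold avgJ915 avgP915
  simp only [hmul]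
  have hper : ∀ ψ : ℝ, Function.Periodic
      (fun θ : ℝ => F (sclR r * rotR ψ * atR t * rotR θ)) (2 * Real.pi) := by
    intro ψ θ
    show F (sclR r * rotR ψ * atR t * rotR (θ + 2 * Real.pi)) = _
    rw [rotR_periodic915 θ]
  have h1 : ∀ ψ : ℝ, ∫⁻ θ, F (sclR r * rotR ψ * atR t * rotR (θ + θ₂)) ∂angM
      = ∫⁻ θ, F (sclR r * rotR ψ * atR t * rotR θ) ∂angM := fun ψ =>
    lintegral_angM_add915 (fun θ : ℝ => F (sclR r * rotR ψ * atR t * rotR θ)) (hper ψ) θ₂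
  simp only [h1]
  have hper2 : Function.Periodic
      (fun φ : ℝ => ∫⁻ θ, F (sclR r * rotR φ * atR t * rotR θ) ∂angM) (2 * Real.pi) := by
    intro φ
    show ∫⁻ θ, F (sclR r * rotR (φ + 2 * Real.pi) * atR t * rotR θ) ∂angM = _
    rw [rotR_periodic915 φ]
  exact lintegral_angM_add915
    (fun φ : ℝ => ∫⁻ θ, F (sclR r * rotR φ * atR t * rotR θ) ∂angM) hper2 θ₁

attribute [local irreducible] avgP915 avgJ915

/-- The Iwasawa formula for the lower integrals. -/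
theorem lintegral_iwa915 (μ : Measure (GL (Fin 2) ℝ)) (c : ℝ≥0∞)
    (hI : μ.restrict posR = c • Measure.map iwaR iwaMR)
    (F : GL (Fin 2) ℝ → ℝ≥0∞) (hF : Measurable F) :
    ∫⁻ g in posR, F g ∂μ
      = c * ∫⁻ q : ℝ × ℝ × ℝ, ∫⁻ θ, F (dgR q.1 q.2.1 * unR q.2.2 * rotR θ) ∂angM := by
  rw [hI, lintegral_smul_measure, lintegral_map hF measurable_iwaR915, smul_eq_mul]
  congr 1
  unfold iwaMR
  rw [lintegral_reassoc915 (fun p => F (iwaR p)) (hF.comp measurable_iwaR915)]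
  rfl

theorem ofReal_two_pi_ne_zero915 : ENNReal.ofReal (2 * Real.pi) ≠ 0 := by
  rw [Ne, ENNReal.ofReal_eq_zero, not_le]
  positivity

/-- Step 1: left invariance and the Iwasawa formula. -/
theorem polar_step1_915 (μ : Measure (GL (Fin 2) ℝ)) [μ.IsMulLeftInvariant] (c : ℝ≥0∞)
    (hI : μ.restrict posR = c • Measure.map iwaR iwaMR)
    (F : GL (Fin 2) ℝ → ℝ≥0∞) (hF : Measurable F) (φ : ℝ) :
    ∫⁻ g in posR, F g ∂μ
      = c * ∫⁻ q : ℝ × ℝ × ℝ,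
          (∫⁻ θ, F (rotR φ * (dgR q.1 q.2.1 * unR q.2.2) * rotR θ) ∂angM) ∂volume := by
  rw [← setLIntegral_rot_mul915 μ F φ,
    lintegral_iwa915 μ c hI (fun g => F (rotR φ * g)) (hF.comp (measurable_const_mul _))]
  congr 1
  refine lintegral_congr fun q => lintegral_congr fun θ => ?_
  show F (rotR φ * (dgR q.1 q.2.1 * unR q.2.2 * rotR θ)) = _
  rw [← mul_assoc (rotR φ)]

theorem polar_meas2_915 (F : GL (Fin 2) ℝ → ℝ≥0∞) (hF : Measurable F) :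
    Measurable fun w : ℝ × (ℝ × ℝ × ℝ) =>
      ∫⁻ θ, F (rotR w.1 * (dgR w.2.1 w.2.2.1 * unR w.2.2.2) * rotR θ) ∂angM := by
  have hm2 : Measurable fun w : (ℝ × (ℝ × ℝ × ℝ)) × ℝ =>
      F (rotR w.1.1 * (dgR w.1.2.1 w.1.2.2.1 * unR w.1.2.2.2) * rotR w.2) := by
    refine hF.comp (Continuous.measurable ?_)
    have h1 : Continuous fun w : (ℝ × (ℝ × ℝ × ℝ)) × ℝ => rotR w.1.1 :=
      continuous_rotR915.comp (by fun_prop)
    have h2 : Continuous fun w : (ℝ × (ℝ × ℝ × ℝ)) × ℝ => dgR w.1.2.1 w.1.2.2.1 :=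
      continuous_dgR915.comp (f := fun w : (ℝ × (ℝ × ℝ × ℝ)) × ℝ => (w.1.2.1, w.1.2.2.1))
        (by fun_prop)
    have h3 : Continuous fun w : (ℝ × (ℝ × ℝ × ℝ)) × ℝ => unR w.1.2.2.2 :=
      continuous_unR915.comp (by fun_prop)
    have h4 : Continuous fun w : (ℝ × (ℝ × ℝ × ℝ)) × ℝ => rotR w.2 :=
      continuous_rotR915.comp (by fun_prop)
    exact (h1.mul (h2.mul h3)).mul h4
  exact hm2.lintegral_prod_right'

/-- Step 2: the average over `φ`. -/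
theorem polar_step2_915 (μ : Measure (GL (Fin 2) ℝ)) [μ.IsMulLeftInvariant] (c : ℝ≥0∞)
    (hc : c ≠ ⊤) (hI : μ.restrict posR = c • Measure.map iwaR iwaMR)
    (F : GL (Fin 2) ℝ → ℝ≥0∞) (hF : Measurable F) :
    ENNReal.ofReal (2 * Real.pi) * ∫⁻ g in posR, F g ∂μ
      = c * ∫⁻ q : ℝ × ℝ × ℝ, avgJ915 F (dgR q.1 q.2.1 * unR q.2.2) := by
  have hm3 := polar_meas2_915 F hF
  have e0 : ENNReal.ofReal (2 * Real.pi) * ∫⁻ g in posR, F g ∂μ
      = ∫⁻ _φ, (∫⁻ g in posR, F g ∂μ) ∂angM := by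
    rw [lintegral_const, angM_univ915, mul_comm]
  have e1 : ∫⁻ _φ, (∫⁻ g in posR, F g ∂μ) ∂angM
      = ∫⁻ φ, (c * ∫⁻ q : ℝ × ℝ × ℝ,
          (∫⁻ θ, F (rotR φ * (dgR q.1 q.2.1 * unR q.2.2) * rotR θ) ∂angM) ∂volume) ∂angM :=
    lintegral_congr fun φ => polar_step1_915 μ c hI F hF φ
  have e2 : ∫⁻ φ, (c * ∫⁻ q : ℝ × ℝ × ℝ,
          (∫⁻ θ, F (rotR φ * (dgR q.1 q.2.1 * unR q.2.2) * rotR θ) ∂angM) ∂volume) ∂angM
      = c * ∫⁻ φ, (∫⁻ q : ℝ × ℝ × ℝ,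
          (∫⁻ θ, F (rotR φ * (dgR q.1 q.2.1 * unR q.2.2) * rotR θ) ∂angM) ∂volume) ∂angM :=
    lintegral_const_mul' _ _ hc
  have e3 : ∫⁻ φ, (∫⁻ q : ℝ × ℝ × ℝ,
          (∫⁻ θ, F (rotR φ * (dgR q.1 q.2.1 * unR q.2.2) * rotR θ) ∂angM) ∂volume) ∂angM
      = ∫⁻ q : ℝ × ℝ × ℝ, (∫⁻ φ,
          (∫⁻ θ, F (rotR φ * (dgR q.1 q.2.1 * unR q.2.2) * rotR θ) ∂angM) ∂angM) ∂volume :=
    lintegral_lintegral_swap (f := fun (φ : ℝ) (q : ℝ × ℝ × ℝ) =>
      ∫⁻ θ, F (rotR φ * (dgR q.1 q.2.1 * unR q.2.2) * rotR θ) ∂angM) hm3.aemeasurable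
  rw [e0, e1, e2, e3]
  congr 1
  exact lintegral_congr fun q => (avgJ915_def F _).symm

/-- Step 3: the Cartan decomposition. -/
theorem polar_step3_915 (hC : CartanRC) (F : GL (Fin 2) ℝ → ℝ≥0∞) (q : ℝ × ℝ × ℝ) :
    avgJ915 F (dgR q.1 q.2.1 * unR q.2.2)
      = avgP915 F ((q.1 + q.2.1) / 2)
          (Real.arcosh (Real.cosh (q.1 - q.2.1) + Real.exp (q.1 - q.2.1) * q.2.2 ^ 2 / 2)) := by
  rw [avgJ_eq_avgP915 hC F _ (dgR_mul_unR_mem_posR915 _ _ _), det_dgR_mul_unR915,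
    Real.log_exp, rhoP_dgR_mul_unR915]

theorem measurable_avgPt915 (F : GL (Fin 2) ℝ → ℝ≥0∞) (hF : Measurable F) :
    Measurable fun w : ℝ × ℝ => avgP915 F w.1 (Real.arcosh w.2) :=
  (measurable_avgP915 F hF).comp
    (measurable_fst.prodMk (measurable_arcosh915.comp measurable_snd))

/-- Step 4: the change of variables and `AbelAreaRC`. -/
theorem polar_step4_915 (hC : CartanRC) (hA : AbelAreaRC) (F : GL (Fin 2) ℝ → ℝ≥0∞)
    (hF : Measurable F) :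
    ∫⁻ q : ℝ × ℝ × ℝ, avgJ915 F (dgR q.1 q.2.1 * unR q.2.2)
      = ENNReal.ofReal (2 * Real.pi) * ∫⁻ r : ℝ, (∫⁻ t, avgP915 F r t ∂radMR) ∂volume := by
  have hPt := measurable_avgPt915 F hF
  have hm4 : Measurable fun w : (ℝ × ℝ) × ℝ =>
      avgP915 F w.1.1
        (Real.arcosh (Real.cosh w.1.2 + Real.exp w.1.2 * w.2 ^ 2 / 2)) :=
    hPt.comp (f := fun w : (ℝ × ℝ) × ℝ =>
      (w.1.1, Real.cosh w.1.2 + Real.exp w.1.2 * w.2 ^ 2 / 2)) (by fun_prop)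
  have hH : Measurable fun z : ℝ × ℝ => ∫⁻ x : ℝ,
      avgP915 F z.1 (Real.arcosh (Real.cosh z.2 + Real.exp z.2 * x ^ 2 / 2)) :=
    hm4.lintegral_prod_right'
  have hm5 : Measurable fun q : ℝ × ℝ × ℝ => avgP915 F ((q.1 + q.2.1) / 2)
      (Real.arcosh (Real.cosh (q.1 - q.2.1) + Real.exp (q.1 - q.2.1) * q.2.2 ^ 2 / 2)) :=
    hPt.comp (f := fun q : ℝ × ℝ × ℝ => ((q.1 + q.2.1) / 2,
      Real.cosh (q.1 - q.2.1) + Real.exp (q.1 - q.2.1) * q.2.2 ^ 2 / 2)) (by fun_prop)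
  have e0 : ∫⁻ q : ℝ × ℝ × ℝ, avgJ915 F (dgR q.1 q.2.1 * unR q.2.2)
      = ∫⁻ q : ℝ × ℝ × ℝ, avgP915 F ((q.1 + q.2.1) / 2)
          (Real.arcosh (Real.cosh (q.1 - q.2.1) + Real.exp (q.1 - q.2.1) * q.2.2 ^ 2 / 2)) :=
    lintegral_congr fun q => polar_step3_915 hC F q
  have e1 : ∫⁻ q : ℝ × ℝ × ℝ, avgP915 F ((q.1 + q.2.1) / 2)
        (Real.arcosh (Real.cosh (q.1 - q.2.1) + Real.exp (q.1 - q.2.1) * q.2.2 ^ 2 / 2))
      = ∫⁻ u₁ : ℝ, ∫⁻ u₂ : ℝ, ∫⁻ x : ℝ, avgP915 F ((u₁ + u₂) / 2)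
        (Real.arcosh (Real.cosh (u₁ - u₂) + Real.exp (u₁ - u₂) * x ^ 2 / 2)) :=
    lintegral_prod3_915 (μ₁ := volume) (μ₂ := volume) (μ₃ := volume)
      (fun q : ℝ × ℝ × ℝ => avgP915 F ((q.1 + q.2.1) / 2)
        (Real.arcosh (Real.cosh (q.1 - q.2.1) + Real.exp (q.1 - q.2.1) * q.2.2 ^ 2 / 2))) hm5
  have e2 := lintegral_rs915 (fun z : ℝ × ℝ => ∫⁻ x : ℝ,
      avgP915 F z.1 (Real.arcosh (Real.cosh z.2 + Real.exp z.2 * x ^ 2 / 2))) hH
  have e3 : ∀ r : ℝ, ∫⁻ s : ℝ, ∫⁻ x : ℝ,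
        avgP915 F r (Real.arcosh (Real.cosh s + Real.exp s * x ^ 2 / 2))
      = ENNReal.ofReal (2 * Real.pi) * ∫⁻ t, avgP915 F r t ∂radMR := by
    intro r
    have hQ : Measurable fun y : ℝ => avgP915 F r (Real.arcosh y) :=
      hPt.comp measurable_prodMk_left
    rw [lintegral_abel915 hA (fun y : ℝ => avgP915 F r (Real.arcosh y)) hQ,
      lintegral_radMR_arcosh915 (fun t => avgP915 F r t)]
  rw [e0, e1]
  refine e2.trans ?_
  rw [← lintegral_const_mul' _ _ ENNReal.ofReal_ne_top]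
  exact lintegral_congr fun r => e3 r

/-- Step 6: the polar coordinates. -/
theorem polar_step6_915 (F : GL (Fin 2) ℝ → ℝ≥0∞) (hF : Measurable F) :
    ∫⁻ r : ℝ, (∫⁻ t, avgP915 F r t ∂radMR) ∂volume = ∫⁻ p, F (polR p) ∂polMR := by
  unfold polMR
  rw [lintegral_prod4_915 (fun p => F (polR p)) (hF.comp measurable_polR915)]
  refine lintegral_congr fun r => ?_
  have hm6 : Measurable fun w : (ℝ × ℝ) × ℝ =>
      F (sclR r * rotR w.1.2 * atR w.1.1 * rotR w.2) := by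
    refine hF.comp (Continuous.measurable ?_)
    have h2 : Continuous fun w : (ℝ × ℝ) × ℝ => rotR w.1.2 :=
      continuous_rotR915.comp (by fun_prop)
    have h3 : Continuous fun w : (ℝ × ℝ) × ℝ => atR w.1.1 :=
      continuous_atR915.comp (by fun_prop)
    have h4 : Continuous fun w : (ℝ × ℝ) × ℝ => rotR w.2 :=
      continuous_rotR915.comp (by fun_prop)
    exact ((continuous_const.mul h2).mul h3).mul h4
  have hm7 : Measurable fun w : ℝ × ℝ =>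
      ∫⁻ θ, F (sclR r * rotR w.2 * atR w.1 * rotR θ) ∂angM := hm6.lintegral_prod_right'
  simp only [avgP915_def]
  exact lintegral_lintegral_swap (f := fun (t φ : ℝ) =>
    ∫⁻ θ, F (sclR r * rotR φ * atR t * rotR θ) ∂angM) hm7.aemeasurable

/-- The polar formula for the lower integrals. -/
theorem lintegral_polar915 (hC : CartanRC) (hA : AbelAreaRC) (μ : Measure (GL (Fin 2) ℝ))
    [μ.IsMulLeftInvariant] (c : ℝ≥0∞) (hc : c ≠ ⊤)
    (hI : μ.restrict posR = c • Measure.map iwaR iwaMR)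
    (F : GL (Fin 2) ℝ → ℝ≥0∞) (hF : Measurable F) :
    ∫⁻ g in posR, F g ∂μ = c * ∫⁻ p, F (polR p) ∂polMR := by
  have h := polar_step2_915 μ c hc hI F hF
  rw [polar_step4_915 hC hA F hF, ← mul_assoc, mul_comm c, mul_assoc] at h
  rw [← polar_step6_915 F hF]
  exact (ENNReal.mul_right_inj ofReal_two_pi_ne_zero915 ENNReal.ofReal_ne_top).mp h

/-- **T6.23.14 (A4): the polar formula on `GL₂(ℝ)⁺` from the Iwasawa formula.** -/
theorem polOfRC915 : PolOfRC := by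
  intro hIwa _ hC hA μ hμ
  have : @Measure.IsHaarMeasure _ _ _ (borel _) μ := hμ
  obtain ⟨c, hc0, hct, hI⟩ := hIwa μ hμ
  refine ⟨c, hc0, hct, ?_⟩
  refine Measure.ext_of_lintegral _ fun F hF => ?_
  rw [lintegral_smul_measure, lintegral_map hF measurable_polR915, smul_eq_mul]
  exact lintegral_polar915 hC hA μ c hct hI F hF

end Group

end Fermat.Agent.LT.T6.H915
end
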